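import Mathlib
import Fermat.Agent.S11.PID.Generic

/-!
# The ring of integers of `ℚ(ζ₁₁)` is a principal ideal domain

Minkowski bound `< 67`; the only primes to check are `11` (ramified, `(ζ - 1)`) and `23`
(totally split, generated by the conjugates of `1 + ζ + ζ³`, an element of norm `23`).
-/

set_option autoImplicit false

namespace Fermat.Agent.S11

open NumberField Polynomial IsCyclotomicExtension Ideal

namespace PID

/-- The norm identity `∏_{k=1}^{10} (1 + z^k + z^{3k}) = 23` for a root `z` of `Φ₁₁`. -/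
theorem prod_identity_eleven {R : Type*} [CommRing R] (z : R)
    (h : 1 + z + z ^ 2 + z ^ 3 + z ^ 4 + z ^ 5 + z ^ 6 + z ^ 7 + z ^ 8 + z ^ 9 + z ^ 10 = 0) :
    (1 + z ^ 1 + (z ^ 1) ^ 3) * (1 + z ^ 2 + (z ^ 2) ^ 3) * (1 + z ^ 3 + (z ^ 3) ^ 3) *
      (1 + z ^ 4 + (z ^ 4) ^ 3) * (1 + z ^ 5 + (z ^ 5) ^ 3) * (1 + z ^ 6 + (z ^ 6) ^ 3) *
      (1 + z ^ 7 + (z ^ 7) ^ 3) * (1 + z ^ 8 + (z ^ 8) ^ 3) * (1 + z ^ 9 + (z ^ 9) ^ 3) *
      (1 + z ^ 10 + (z ^ 10) ^ 3) = 23 := by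
  linear_combination ((-22) + (23) * z + (2) * z ^ 3 + (-1) * z ^ 4 + (2) * z ^ 5 + (2) * z ^ 6 + (1) * z ^ 7 + (1) * z ^ 8 + (5) * z ^ 9 + (3) * z ^ 10 + (-21) * z ^ 11 + (30) * z ^ 12 + (2) * z ^ 13 + (8) * z ^ 14 + (8) * z ^ 15 + (7) * z ^ 16 + (6) * z ^ 17 + (16) * z ^ 18 + (4) * z ^ 19 + (16) * z ^ 20 + (18) * z ^ 21 + (-13) * z ^ 22 + (38) * z ^ 23 + (24) * z ^ 24 + (15) * z ^ 25 + (17) * z ^ 26 + (34) * z ^ 27 + (18) * z ^ 28 + (25) * z ^ 29 + (33) * z ^ 30 + (30) * z ^ 31 + (23) * z ^ 32 + (26) * z ^ 33 + (43) * z ^ 34 + (44) * z ^ 35 + (52) * z ^ 36 + (34) * z ^ 37 + (38) * z ^ 38 + (66) * z ^ 39 + (33) * z ^ 40 + (45) * z ^ 41 + (75) * z ^ 42 + (36) * z ^ 43 + (39) * z ^ 44 + (108) * z ^ 45 + (39) * z ^ 46 + (62) * z ^ 47 + (86) * z ^ 48 + (46) * z ^ 49 + (69) * z ^ 50 + (91) * z ^ 51 + (57) * z ^ 52 + (65) * z ^ 53 + (109) * z ^ 54 + (43) * z ^ 55 + (85) * z ^ 56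 + (102) * z ^ 57 + (69) * z ^ 58 + (68) * z ^ 59 + (108) * z ^ 60 + (64) * z ^ 61 + (78) * z ^ 62 + (112) * z ^ 63 + (59) * z ^ 64 + (81) * z ^ 65 + (124) * z ^ 66 + (47) * z ^ 67 + (90) * z ^ 68 + (112) * z ^ 69 + (56) * z ^ 70 + (69) * z ^ 71 + (135) * z ^ 72 + (43) * z ^ 73 + (82) * z ^ 74 + (105) * z ^ 75 + (57) * z ^ 76 + (74) * z ^ 77 + (109) * z ^ 78 + (50) * z ^ 79 + (72) * z ^ 80 + (94) * z ^ 81 + (43) * z ^ 82 + (76) * z ^ 83 + (98) * z ^ 84 + (28) * z ^ 85 + (70) * z ^ 86 + (89) * z ^ 87 + (33) * z ^ 88 + (63) * z ^ 89 + (81) * z ^ 90 + (30) * z ^ 91 + (51) * z ^ 92 + (81) * z ^ 93 + (20) * z ^ 94 + (54) * z ^ 95 + (60) * z ^ 96 + (23) * z ^ 97 + (40) * z ^ 98 + (64) * z ^ 99 + (12) * z ^ 100 + (48) * z ^ 101 + (42) * z ^ 102 + (19) * z ^ 103 + (28) * z ^ 104 + (53) * z ^ 105 + (-1) * z ^ 106 + (42) * z ^ 107 + (25) * z ^ 108 + (17) * z ^ 109 + (19) * z ^ 110 +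 (40) * z ^ 111 + (-6) * z ^ 112 + (30) * z ^ 113 + (19) * z ^ 114 + (10) * z ^ 115 + (9) * z ^ 116 + (31) * z ^ 117 + (-9) * z ^ 118 + (22) * z ^ 119 + (11) * z ^ 120 + (10) * z ^ 121 + (4) * z ^ 122 + (21) * z ^ 123 + (-10) * z ^ 124 + (19) * z ^ 125 + (2) * z ^ 126 + (5) * z ^ 127 + (3) * z ^ 128 + (12) * z ^ 129 + (-7) * z ^ 130 + (13) * z ^ 131 + (1) * z ^ 132 + (3) * z ^ 133 + (9) * z ^ 135 + (-6) * z ^ 136 + (7) * z ^ 137 + (2) * z ^ 139 + (-1) * z ^ 140 + (5) * z ^ 141 + (-3) * z ^ 142 + (4) * z ^ 143 + (2) * z ^ 147 + (-2) * z ^ 148 + (3) * z ^ 149 + (-1) * z ^ 150 + (1) * z ^ 153 + (-1) * z ^ 154 + (1) * z ^ 155) * h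

theorem orderOf_twentythree_mod_eleven : orderOf ((23 : ℕ) : ZMod 11) = 1 := by
  rw [orderOf_eq_one_iff]; decide

theorem geom_sum_theta_eleven (K : Type*) [Field K] [NumberField K]
    [IsCyclotomicExtension {11} ℚ K] [Fact (Nat.Prime 11)] :
    1 + theta 11 K + theta 11 K ^ 2 + theta 11 K ^ 3 + theta 11 K ^ 4 + theta 11 K ^ 5 +
      theta 11 K ^ 6 + theta 11 K ^ 7 + theta 11 K ^ 8 + theta 11 K ^ 9 + theta 11 K ^ 10 = 0 := by
  have h := (zeta_spec 11 ℚ K).toInteger_isPrimitiveRoot.geom_sum_eq_zero (by norm_num)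
  simpa [Finset.sum_range_succ] using h

theorem prod_eq_eleven (K : Type*) [Field K] [NumberField K]
    [IsCyclotomicExtension {11} ℚ K] [Fact (Nat.Prime 11)] :
    ∏ k ∈ Finset.Ico 1 11, aeval (theta 11 K ^ k) (1 + X + X ^ 3 : ℤ[X]) = ((23 : ℤ) : 𝓞 K) := by
  have h := prod_identity_eleven (theta 11 K) (geom_sum_theta_eleven K)
  rw [Finset.prod_Ico_eq_prod_range]
  simp only [Finset.prod_range_succ, Finset.prod_range_zero, one_mul, aeval_add, aeval_one,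
    aeval_X, aeval_X_pow, Nat.reduceAdd, Nat.reduceSub, Int.cast_ofNat]
  exact h

/-- The Minkowski bound of `ℚ(ζ₁₁)` is smaller than `67`. -/
theorem minkowski_bound_eleven (K : Type*) [Field K] [NumberField K]
    [IsCyclotomicExtension {11} ℚ K] [Fact (Nat.Prime 11)] :
    ⌊(4 / Real.pi) ^ InfinitePlace.nrComplexPlaces K *
      ((Module.finrank ℚ K).factorial / (Module.finrank ℚ K) ^ Module.finrank ℚ K *
        √|(NumberField.discr K : ℝ)|)⌋₊ ≤ 66 := by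
  have h1 : InfinitePlace.nrComplexPlaces K = 5 := by
    rw [IsCyclotomicExtension.Rat.nrComplexPlaces_eq_totient_div_two 11 K,
      Nat.totient_prime (by norm_num)]
  have h2 : Module.finrank ℚ K = 10 := by
    rw [IsCyclotomicExtension.finrank (n := 11) K (cyclotomic.irreducible_rat (by norm_num)),
      Nat.totient_prime (by norm_num)]
  have h3 : NumberField.discr K = -11 ^ 9 := by
    rw [IsCyclotomicExtension.Rat.discr_prime 11 K]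
    norm_num
  rw [h1, h2, h3]
  have hpi : (3.14 : ℝ) < Real.pi := Real.pi_gt_d2
  have hsqrt : √|((-11 ^ 9 : ℤ) : ℝ)| ≤ 48560 := by
    rw [Real.sqrt_le_iff]
    constructor
    · norm_num
    · norm_num [abs_of_nonneg]
  have h4 : (4 / Real.pi) ^ 5 ≤ (4 / 3.14 : ℝ) ^ 5 := by
    have hpos : (0 : ℝ) < Real.pi := Real.pi_pos
    gcongr
  have hlt : (4 / Real.pi) ^ 5 * (((10 : ℕ).factorial : ℝ) / ((10 : ℕ) : ℝ) ^ 10 *
      √|((-11 ^ 9 : ℤ) : ℝ)|) < 67 := by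
    have h5 : (((10 : ℕ).factorial : ℝ) / ((10 : ℕ) : ℝ) ^ 10 * √|((-11 ^ 9 : ℤ) : ℝ)|) ≤
        ((10 : ℕ).factorial : ℝ) / ((10 : ℕ) : ℝ) ^ 10 * 48560 := by
      gcongr
    have h6 : (0 : ℝ) ≤ ((10 : ℕ).factorial : ℝ) / ((10 : ℕ) : ℝ) ^ 10 * 48560 := by positivity
    calc (4 / Real.pi) ^ 5 * (((10 : ℕ).factorial : ℝ) / ((10 : ℕ) : ℝ) ^ 10 *
          √|((-11 ^ 9 : ℤ) : ℝ)|)
        ≤ (4 / 3.14 : ℝ) ^ 5 * (((10 : ℕ).factorial : ℝ) / ((10 : ℕ) : ℝ) ^ 10 * 48560) := by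
          gcongr
      _ < 67 := by norm_num [Nat.factorial]
  have hfl : ⌊(4 / Real.pi) ^ 5 * (((10 : ℕ).factorial : ℝ) / ((10 : ℕ) : ℝ) ^ 10 *
      √|((-11 ^ 9 : ℤ) : ℝ)|)⌋₊ < 67 :=
    (Nat.floor_lt (by positivity)).mpr (by exact_mod_cast hlt)
  exact Nat.lt_succ_iff.mp hfl

end PID

open PID in
/-- The ring of integers of the `11`-th cyclotomic field is a principal ideal domain. -/
theorem pid_eleven (K : Type) [Field K] [NumberField K] [IsCyclotomicExtension {11} ℚ K] :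
    IsPrincipalIdealRing (𝓞 K) := by
  have : Fact (Nat.Prime 11) := ⟨by norm_num⟩
  apply RingOfIntegers.isPrincipalIdealRing_of_isPrincipal_of_pow_le_of_mem_primesOver_of_mem_Icc
  intro ℓ hℓmem hℓ P hP hle
  have hM := minkowski_bound_eleven K
  have hℓ66 : ℓ ≤ 66 := (Finset.mem_Icc.mp hℓmem).2.trans hM
  have : Fact ℓ.Prime := ⟨hℓ⟩
  have : P.IsPrime := hP.1
  have : P.LiesOver (span {(ℓ : ℤ)}) := hP.2
  by_cases h11 : ℓ = 11
  · subst h11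
    rw [IsCyclotomicExtension.Rat.eq_span_zeta_sub_one_of_liesOver' 11 K (zeta_spec 11 ℚ K) P]
    exact ⟨⟨_, rfl⟩⟩
  have hndvd : ¬ ℓ ∣ 11 := fun h => h11 ((Nat.prime_dvd_prime_iff_eq hℓ (by norm_num)).mp h)
  have hf := IsCyclotomicExtension.Rat.inertiaDeg_eq_of_not_dvd ℓ K P hndvd
  by_cases h23 : ℓ = 23
  · subst h23
    refine isPrincipal_of_prod_eq (p := 11) (1 + X + X ^ 3 : ℤ[X]) 23 (prod_eq_eleven K) 23
      hndvd ?_ P
    rw [orderOf_twentythree_mod_eleven]; rfl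
  · exfalso
    have h0 : orderOf ((ℓ : ℕ) : ZMod 11) ≠ 0 := by
      rw [← hf]
      intro h0
      have hN := Ideal.pow_inertiaDeg ℓ P
      rw [h0, pow_zero] at hN
      exact (Ideal.IsPrime.ne_top inferInstance) (Ideal.absNorm_eq_one_iff.mp hN.symm)
    rw [hf] at hle
    have hle66 := hle.trans hM
    have hℓ1 : 1 ≤ ℓ := hℓ.one_le
    interval_cases ℓ <;>
      first
      | (exfalso; revert hℓ; norm_num; done)
      | exact absurd hle66 (not_le.mpr (lt_pow_orderOf _ _ 66 2 hℓ1 (by decide) h0 (by decide)))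
      | exact absurd hle66 (not_le.mpr (lt_pow_orderOf _ _ 66 3 hℓ1 (by decide) h0 (by decide)))
      | exact absurd hle66 (not_le.mpr (lt_pow_orderOf _ _ 66 4 hℓ1 (by decide) h0 (by decide)))
      | exact absurd hle66 (not_le.mpr (lt_pow_orderOf _ _ 66 7 hℓ1 (by decide) h0 (by decide)))
      | exact (h11 rfl).elim
      | exact (h23 rfl).elim

end Fermat.Agent.S11
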