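/-
Case I of Fermat's Last Theorem via Sophie Germain's theorem with an auxiliary prime.

If `p` is an odd prime and `q` is a prime such that
* `x ^ p + y ^ p + z ^ p = 0` in `ZMod q` forces `x * y * z = 0`, and
* `p` is not a `p`-th power in `ZMod q`,
then `a ^ p + b ^ p = c ^ p` with `a`, `b` coprime integers forces `p ∣ a * b * c`.

Instances: `p = 5` (`q = 11`), `p = 7` (`q = 29`), `p = 11` (`q = 23`), `p = 13` (`q = 53`),
and the classical case `q = 2 * p + 1`.
-/
import Mathlib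

set_option autoImplicit false

namespace Fermat.Agent.S11

namespace SophieGermain

open Finset

/-- The cofactor `(y ^ p + z ^ p) / (y + z)` (for odd `p`). -/
def phi (p : ℕ) {R : Type*} [CommRing R] (y z : R) : R :=
  ∑ i ∈ range p, y ^ i * (-z) ^ (p - 1 - i)

theorem add_mul_phi {R : Type*} [CommRing R] {p : ℕ} (hp : Odd p) (y z : R) :
    (y + z) * phi p y z = y ^ p + z ^ p := by
  have h := (Commute.all y (-z)).geom_sum₂_mul p
  rw [sub_neg_eq_add, hp.neg_pow, sub_neg_eq_add] at h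
  rw [mul_comm]
  exact h

theorem intCast_phi (p q : ℕ) (y z : ℤ) :
    ((phi p y z : ℤ) : ZMod q) = phi p (y : ZMod q) (z : ZMod q) := by
  unfold phi
  push_cast
  rfl

theorem isCoprime_add_phi {p : ℕ} (hp : p.Prime) {y z : ℤ} (hyz : IsCoprime y z)
    (hnd : ¬ (p : ℤ) ∣ y + z) : IsCoprime (y + z) (phi p y z) := by
  rw [Int.isCoprime_iff_gcd_eq_one]
  by_contra hne
  obtain ⟨r, hr, hrd⟩ := Nat.exists_prime_and_dvd hne
  have h1 : (r : ℤ) ∣ y + z := (Int.natCast_dvd_natCast.mpr hrd).trans (Int.gcd_dvd_left _ _)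
  have h2 : (r : ℤ) ∣ phi p y z := (Int.natCast_dvd_natCast.mpr hrd).trans (Int.gcd_dvd_right _ _)
  have h1' : (r : ℤ) ∣ y - -z := by simpa using h1
  have h3 : (r : ℤ) ∣ (p : ℤ) * (-z) ^ (p - 1) := (dvd_geom_sum₂_iff_of_dvd_sub h1').mp h2
  have hrp : Prime (r : ℤ) := Nat.prime_iff_prime_int.mp hr
  rcases hrp.dvd_or_dvd h3 with h4 | h4
  · have h5 : r ∣ p := Int.natCast_dvd_natCast.mp h4
    have h6 : r = p := (Nat.prime_dvd_prime_iff_eq hr hp).mp h5
    subst h6
    exact hnd h1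
  · have h5 : (r : ℤ) ∣ -z := hrp.dvd_of_dvd_pow h4
    have h6 : (r : ℤ) ∣ z := (dvd_neg).mp h5
    have h7 : (r : ℤ) ∣ y := by
      have := dvd_sub h1 h6
      simpa using this
    exact hrp.not_isUnit (hyz.isUnit_of_dvd' h7 h6)

/-- The core of Sophie Germain's argument, in the case where the auxiliary prime divides `x`. -/
theorem false_of_dvd {p q : ℕ} (hp : p.Prime) (hp2 : p ≠ 2) [Fact q.Prime]
    (h1 : ∀ x y z : ZMod q, x ^ p + y ^ p + z ^ p = 0 → x * y * z = 0)
    (h2 : ∀ x : ZMod q, x ^ p ≠ (p : ZMod q))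
    {x y z : ℤ} (h : x ^ p + y ^ p + z ^ p = 0)
    (hxy : IsCoprime x y) (hyz : IsCoprime y z) (hzx : IsCoprime z x)
    (hpx : ¬ (p : ℤ) ∣ x) (hpy : ¬ (p : ℤ) ∣ y) (hpz : ¬ (p : ℤ) ∣ z)
    (hqx : (q : ℤ) ∣ x) : False := by
  have hodd : Odd p := hp.odd_of_ne_two hp2
  have hpP : Prime (p : ℤ) := Nat.prime_iff_prime_int.mp hp
  have hqP : Prime (q : ℤ) := Nat.prime_iff_prime_int.mp (Fact.out : q.Prime)
  have e1 : (y + z) * phi p y z = (-x) ^ p := by
    rw [add_mul_phi hodd, hodd.neg_pow]; linarith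
  have e2 : (z + x) * phi p z x = (-y) ^ p := by
    rw [add_mul_phi hodd, hodd.neg_pow]; linarith
  have e3 : (x + y) * phi p x y = (-z) ^ p := by
    rw [add_mul_phi hodd, hodd.neg_pow]; linarith
  have n1 : ¬ (p : ℤ) ∣ y + z := fun hd => hpx (by
    have h' : (p : ℤ) ∣ (-x) ^ p := e1 ▸ Dvd.dvd.mul_right hd _
    exact (dvd_neg).mp (hpP.dvd_of_dvd_pow h'))
  have n2 : ¬ (p : ℤ) ∣ z + x := fun hd => hpy (by
    have h' : (p : ℤ) ∣ (-y) ^ p := e2 ▸ Dvd.dvd.mul_right hd _
    exact (dvd_neg).mp (hpP.dvd_of_dvd_pow h'))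
  have n3 : ¬ (p : ℤ) ∣ x + y := fun hd => hpz (by
    have h' : (p : ℤ) ∣ (-z) ^ p := e3 ▸ Dvd.dvd.mul_right hd _
    exact (dvd_neg).mp (hpP.dvd_of_dvd_pow h'))
  obtain ⟨a, ha⟩ := Int.eq_pow_of_mul_eq_pow_odd_left (isCoprime_add_phi hp hyz n1) hodd e1
  obtain ⟨α, hα⟩ := Int.eq_pow_of_mul_eq_pow_odd_right (isCoprime_add_phi hp hyz n1) hodd e1
  obtain ⟨b, hb⟩ := Int.eq_pow_of_mul_eq_pow_odd_left (isCoprime_add_phi hp hzx n2) hodd e2
  obtain ⟨c, hc⟩ := Int.eq_pow_of_mul_eq_pow_odd_left (isCoprime_add_phi hp hxy n3) hodd e3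
  obtain ⟨γ, hγ⟩ := Int.eq_pow_of_mul_eq_pow_odd_right (isCoprime_add_phi hp hxy n3) hodd e3
  -- reduce modulo `q`
  have hx0 : (x : ZMod q) = 0 := (ZMod.intCast_zmod_eq_zero_iff_dvd x q).mpr hqx
  have hy0 : (y : ZMod q) ≠ 0 := fun h0 =>
    hqP.not_isUnit (hxy.isUnit_of_dvd' hqx ((ZMod.intCast_zmod_eq_zero_iff_dvd y q).mp h0))
  have hz0 : (z : ZMod q) ≠ 0 := fun h0 =>
    hqP.not_isUnit (hzx.isUnit_of_dvd' ((ZMod.intCast_zmod_eq_zero_iff_dvd z q).mp h0) hqx)
  have key : (b : ZMod q) ^ p + (c : ZMod q) ^ p + (-(a : ZMod q)) ^ p = 0 := by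
    rw [hodd.neg_pow]
    have h' : ((b ^ p + c ^ p - a ^ p : ℤ) : ZMod q) = 0 := by
      rw [← hb, ← hc, ← ha]
      have h'' : (z + x) + (x + y) - (y + z) = 2 * x := by ring
      rw [h'']
      push_cast
      rw [hx0, mul_zero]
    push_cast at h'
    linear_combination h'
  rcases mul_eq_zero.mp (h1 _ _ _ key) with h' | h'
  · rcases mul_eq_zero.mp h' with hb0 | hc0
    · apply hz0
      have h'' : ((z + x : ℤ) : ZMod q) = 0 := by
        rw [hb]; push_cast; rw [hb0, zero_pow hp.ne_zero]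
      push_cast at h''
      rw [hx0, add_zero] at h''
      exact h''
    · apply hy0
      have h'' : ((x + y : ℤ) : ZMod q) = 0 := by
        rw [hc]; push_cast; rw [hc0, zero_pow hp.ne_zero]
      push_cast at h''
      rw [hx0, zero_add] at h''
      exact h''
  · have ha0 : (a : ZMod q) = 0 := neg_eq_zero.mp h'
    have hyz0 : (y : ZMod q) + (z : ZMod q) = 0 := by
      have h'' : ((y + z : ℤ) : ZMod q) = 0 := by
        rw [ha]; push_cast; rw [ha0, zero_pow hp.ne_zero]
      push_cast at h''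
      exact h''
    have hzy : -(z : ZMod q) = (y : ZMod q) := by linear_combination -hyz0
    have hA : (α : ZMod q) ^ p = (p : ZMod q) * (y : ZMod q) ^ (p - 1) := by
      have h'' : ((phi p y z : ℤ) : ZMod q) = (α : ZMod q) ^ p := by
        rw [hα]; push_cast; rfl
      rw [← h'', intCast_phi]
      unfold phi
      rw [hzy]
      exact geom_sum₂_self _ _
    have hC : (γ : ZMod q) ^ p = (y : ZMod q) ^ (p - 1) := by
      have h'' : ((phi p x y : ℤ) : ZMod q) = (γ : ZMod q) ^ p := by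
        rw [hγ]; push_cast; rfl
      rw [← h'', intCast_phi]
      unfold phi
      rw [hx0, Finset.sum_eq_single 0]
      · rw [pow_zero, one_mul, Nat.sub_zero]
        exact Even.neg_pow (hp.even_sub_one hp2) _
      · intro i _ hi
        rw [zero_pow hi, zero_mul]
      · intro h0
        exact absurd (Finset.mem_range.mpr hp.pos) h0
    have hγ0 : (γ : ZMod q) ≠ 0 := by
      intro h0
      rw [h0, zero_pow hp.ne_zero] at hC
      exact pow_ne_zero _ hy0 hC.symm
    apply h2 ((α : ZMod q) * (γ : ZMod q)⁻¹)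
    rw [mul_pow, inv_pow, hA, hC]
    have hne : (y : ZMod q) ^ (p - 1) ≠ 0 := pow_ne_zero _ hy0
    field_simp

/-- Sophie Germain's theorem, symmetric form. -/
theorem false_of_sum_eq_zero {p q : ℕ} (hp : p.Prime) (hp2 : p ≠ 2) [Fact q.Prime]
    (h1 : ∀ x y z : ZMod q, x ^ p + y ^ p + z ^ p = 0 → x * y * z = 0)
    (h2 : ∀ x : ZMod q, x ^ p ≠ (p : ZMod q))
    {x y z : ℤ} (h : x ^ p + y ^ p + z ^ p = 0)
    (hxy : IsCoprime x y) (hyz : IsCoprime y z) (hzx : IsCoprime z x)
    (hpx : ¬ (p : ℤ) ∣ x) (hpy : ¬ (p : ℤ) ∣ y) (hpz : ¬ (p : ℤ) ∣ z) : False := by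
  have hq : (x : ZMod q) * (y : ZMod q) * (z : ZMod q) = 0 := by
    apply h1
    have h' := congrArg (Int.cast : ℤ → ZMod q) h
    push_cast at h'
    exact h'
  rcases mul_eq_zero.mp hq with h' | h'
  · rcases mul_eq_zero.mp h' with h0 | h0
    · exact false_of_dvd hp hp2 h1 h2 h hxy hyz hzx hpx hpy hpz
        ((ZMod.intCast_zmod_eq_zero_iff_dvd x q).mp h0)
    · exact false_of_dvd hp hp2 h1 h2 (by linarith : y ^ p + z ^ p + x ^ p = 0) hyz hzx hxy
        hpy hpz hpx ((ZMod.intCast_zmod_eq_zero_iff_dvd y q).mp h0)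
  · exact false_of_dvd hp hp2 h1 h2 (by linarith : z ^ p + x ^ p + y ^ p = 0) hzx hxy hyz
      hpz hpx hpy ((ZMod.intCast_zmod_eq_zero_iff_dvd z q).mp h')

end SophieGermain

open SophieGermain in
/-- **Sophie Germain's theorem** with a general auxiliary prime `q`: the first case of
Fermat's Last Theorem for the odd prime exponent `p`. -/
theorem caseI_of_auxiliary_prime {p q : ℕ} (hp : p.Prime) (hp2 : p ≠ 2) (hq : q.Prime)
    (h1 : ∀ x y z : ZMod q, x ^ p + y ^ p + z ^ p = 0 → x * y * z = 0)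
    (h2 : ∀ x : ZMod q, x ^ p ≠ (p : ZMod q))
    {a b c : ℤ} (h : a ^ p + b ^ p = c ^ p) (hab : IsCoprime a b) : (p : ℤ) ∣ a * b * c := by
  by_contra hnd
  have := Fact.mk hq
  have hodd : Odd p := hp.odd_of_ne_two hp2
  have hpa : ¬ (p : ℤ) ∣ a := fun hd => hnd ((hd.mul_right b).mul_right c)
  have hpb : ¬ (p : ℤ) ∣ b := fun hd => hnd ((hd.mul_left a).mul_right c)
  have hpc : ¬ (p : ℤ) ∣ c := fun hd => hnd (hd.mul_left (a * b))
  have hcb : IsCoprime c b := by
    have h' : IsCoprime (a ^ p + b * b ^ (p - 1)) b :=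
      (hab.pow_left (m := p)).add_mul_left_left (b ^ (p - 1))
    rw [mul_pow_sub_one hp.ne_zero, h] at h'
    exact (IsCoprime.pow_left_iff hp.pos).mp h'
  have hca : IsCoprime c a := by
    have h' : IsCoprime (b ^ p + a * a ^ (p - 1)) a :=
      (hab.symm.pow_left (m := p)).add_mul_left_left (a ^ (p - 1))
    rw [mul_pow_sub_one hp.ne_zero, add_comm, h] at h'
    exact (IsCoprime.pow_left_iff hp.pos).mp h'
  refine false_of_sum_eq_zero hp hp2 h1 h2 (x := a) (y := b) (z := -c) ?_ hab hcb.symm.neg_right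
    hca.neg_left hpa hpb (by rwa [dvd_neg])
  rw [hodd.neg_pow]
  linarith

/-- **Sophie Germain's theorem** (classical form, auxiliary prime `2 * p + 1`). -/
theorem caseI_sophie_germain {p : ℕ} (hp : p.Prime) (hp2 : p ≠ 2) (hq : (2 * p + 1).Prime)
    {a b c : ℤ} (h : a ^ p + b ^ p = c ^ p) (hab : IsCoprime a b) : (p : ℤ) ∣ a * b * c := by
  have := Fact.mk hq
  have hp3 : 3 ≤ p := by
    have := hp.two_le
    omega
  have hpow : ∀ x : ZMod (2 * p + 1), x ^ p = 0 ∨ x ^ p = 1 ∨ x ^ p = -1 := by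
    intro x
    by_cases hx : x = 0
    · left
      rw [hx, zero_pow hp.ne_zero]
    · right
      have e1 : x ^ (2 * p + 1 - 1) = 1 := ZMod.pow_card_sub_one_eq_one hx
      have e2 : (x ^ p) ^ 2 = 1 := by
        have e0 : (x ^ p) ^ 2 = x ^ (2 * p + 1 - 1) := by
          rw [← pow_mul]
          congr 1
          omega
        rw [e0]
        exact e1
      have e3 : (x ^ p - 1) * (x ^ p + 1) = 0 := by linear_combination e2
      rcases mul_eq_zero.mp e3 with e | e
      · left; linear_combination e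
      · right; linear_combination e
  have cast_ne : ∀ n : ℕ, 0 < n → n < 2 * p + 1 → ((n : ℕ) : ZMod (2 * p + 1)) ≠ 0 := by
    intro n hn0 hn h0
    rw [ZMod.natCast_eq_zero_iff] at h0
    exact absurd (Nat.le_of_dvd hn0 h0) (by omega)
  have one_ne : (1 : ZMod (2 * p + 1)) ≠ 0 := one_ne_zero
  have three_ne : (3 : ZMod (2 * p + 1)) ≠ 0 := by
    have := cast_ne 3 (by norm_num) (by omega)
    exact_mod_cast this
  have hp_ne0 : ((p : ℕ) : ZMod (2 * p + 1)) ≠ 0 := cast_ne p hp.pos (by omega)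
  have hp_ne1 : ((p : ℕ) : ZMod (2 * p + 1)) ≠ 1 := by
    intro h1
    have := cast_ne (p - 1) (by omega) (by omega)
    apply this
    rw [Nat.cast_sub hp.one_le, h1]
    simp
  have hp_neneg1 : ((p : ℕ) : ZMod (2 * p + 1)) ≠ -1 := by
    intro h1
    have := cast_ne (p + 1) (by omega) (by omega)
    apply this
    rw [Nat.cast_add, h1]
    simp
  refine caseI_of_auxiliary_prime hp hp2 hq ?_ ?_ h hab
  · intro x y z hxyz
    by_contra hne
    have hx : x ≠ 0 := fun h0 => hne (by rw [h0]; ring)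
    have hy : y ≠ 0 := fun h0 => hne (by rw [h0]; ring)
    have hz : z ≠ 0 := fun h0 => hne (by rw [h0]; ring)
    have hx' : x ^ p = 1 ∨ x ^ p = -1 := (hpow x).resolve_left (pow_ne_zero _ hx)
    have hy' : y ^ p = 1 ∨ y ^ p = -1 := (hpow y).resolve_left (pow_ne_zero _ hy)
    have hz' : z ^ p = 1 ∨ z ^ p = -1 := (hpow z).resolve_left (pow_ne_zero _ hz)
    rcases hx' with hx' | hx' <;> rcases hy' with hy' | hy' <;> rcases hz' with hz' | hz' <;>
      rw [hx', hy', hz'] at hxyz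
    · exact three_ne (by linear_combination hxyz)
    · exact one_ne (by linear_combination hxyz)
    · exact one_ne (by linear_combination hxyz)
    · exact one_ne (by linear_combination -hxyz)
    · exact one_ne (by linear_combination hxyz)
    · exact one_ne (by linear_combination -hxyz)
    · exact one_ne (by linear_combination -hxyz)
    · exact three_ne (by linear_combination -hxyz)
  · intro x hx
    rcases hpow x with h0 | h0 | h0
    · exact hp_ne0 (by rw [← hx, h0])
    · exact hp_ne1 (by rw [← hx, h0])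
    · exact hp_neneg1 (by rw [← hx, h0])

/-- First case of Fermat's Last Theorem for exponent `5`. -/
theorem caseI_five {a b c : ℤ} (h : a ^ 5 + b ^ 5 = c ^ 5) (hab : IsCoprime a b) :
    (5 : ℤ) ∣ a * b * c := by
  have := caseI_sophie_germain (p := 5) (by norm_num) (by norm_num) (by norm_num) h hab
  exact_mod_cast this

/-- First case of Fermat's Last Theorem for exponent `11`. -/
theorem caseI_eleven {a b c : ℤ} (h : a ^ 11 + b ^ 11 = c ^ 11) (hab : IsCoprime a b) :
    (11 : ℤ) ∣ a * b * c := by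
  have := caseI_sophie_germain (p := 11) (by norm_num) (by norm_num) (by norm_num) h hab
  exact_mod_cast this

namespace SophieGermain

set_option maxRecDepth 100000 in
theorem pow_seven_mem : ∀ x : ZMod 29, x = 0 ∨ x ^ 7 ∈ ({1, -1, 12, -12} : Finset (ZMod 29)) := by
  decide

set_option maxRecDepth 100000 in
theorem sum_seven_ne : ∀ s ∈ ({1, -1, 12, -12} : Finset (ZMod 29)),
    ∀ t ∈ ({1, -1, 12, -12} : Finset (ZMod 29)), ∀ u ∈ ({1, -1, 12, -12} : Finset (ZMod 29)),
    s + t + u ≠ 0 := by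
  decide

set_option maxRecDepth 100000 in
theorem seven_not_pow : ∀ x : ZMod 29, x ^ 7 ≠ ((7 : ℕ) : ZMod 29) := by
  decide

set_option maxRecDepth 100000 in
theorem pow_thirteen_mem :
    ∀ x : ZMod 53, x = 0 ∨ x ^ 13 ∈ ({1, -1, 23, -23} : Finset (ZMod 53)) := by
  decide

set_option maxRecDepth 100000 in
theorem sum_thirteen_ne : ∀ s ∈ ({1, -1, 23, -23} : Finset (ZMod 53)),
    ∀ t ∈ ({1, -1, 23, -23} : Finset (ZMod 53)), ∀ u ∈ ({1, -1, 23, -23} : Finset (ZMod 53)),
    s + t + u ≠ 0 := by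
  decide

set_option maxRecDepth 100000 in
theorem thirteen_not_pow : ∀ x : ZMod 53, x ^ 13 ≠ ((13 : ℕ) : ZMod 53) := by
  decide

end SophieGermain

open SophieGermain in
/-- First case of Fermat's Last Theorem for exponent `7` (auxiliary prime `29`). -/
theorem caseI_seven {a b c : ℤ} (h : a ^ 7 + b ^ 7 = c ^ 7) (hab : IsCoprime a b) :
    (7 : ℤ) ∣ a * b * c := by
  have := caseI_of_auxiliary_prime (p := 7) (q := 29) (by norm_num) (by norm_num) (by norm_num)
    ?_ seven_not_pow h hab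
  · exact_mod_cast this
  · intro x y z hxyz
    by_contra hne
    have hx : x ≠ 0 := fun h0 => hne (by rw [h0]; ring)
    have hy : y ≠ 0 := fun h0 => hne (by rw [h0]; ring)
    have hz : z ≠ 0 := fun h0 => hne (by rw [h0]; ring)
    exact sum_seven_ne _ ((pow_seven_mem x).resolve_left hx) _ ((pow_seven_mem y).resolve_left hy)
      _ ((pow_seven_mem z).resolve_left hz) hxyz

open SophieGermain in
/-- First case of Fermat's Last Theorem for exponent `13` (auxiliary prime `53`). -/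
theorem caseI_thirteen {a b c : ℤ} (h : a ^ 13 + b ^ 13 = c ^ 13) (hab : IsCoprime a b) :
    (13 : ℤ) ∣ a * b * c := by
  have := caseI_of_auxiliary_prime (p := 13) (q := 53) (by norm_num) (by norm_num) (by norm_num)
    ?_ thirteen_not_pow h hab
  · exact_mod_cast this
  · intro x y z hxyz
    by_contra hne
    have hx : x ≠ 0 := fun h0 => hne (by rw [h0]; ring)
    have hy : y ≠ 0 := fun h0 => hne (by rw [h0]; ring)
    have hz : z ≠ 0 := fun h0 => hne (by rw [h0]; ring)
    exact sum_thirteen_ne _ ((pow_thirteen_mem x).resolve_left hx) _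
      ((pow_thirteen_mem y).resolve_left hy) _ ((pow_thirteen_mem z).resolve_left hz) hxyz

end Fermat.Agent.S11
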