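import Mathlib
import Fermat.Agent.S11.SophieGermain

/-!
# Assembly of Fermat's Last Theorem for a regular prime exponent from its four ingredients

`flt_of_ingredients`: for a prime `p ≥ 5`, Case I (`p ∣ a * b * c`), the principal ideal property
of the ring of integers of the `p`-th cyclotomic field, Kummer's lemma and the Case II descent
together give Fermat's Last Theorem for exponent `p` in coprime integer form.
-/

set_option autoImplicit false

open NumberField

namespace Fermat.Agent.S11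

/-- The shape of the Case II descent statement for a prime `p` and a cyclotomic field `K`. -/
def CaseIIStatement (p : ℕ) (K : Type) [Field K] [NumberField K] : Prop :=
  (∀ (u : (𝓞 K)ˣ) (n : ℤ), (p : 𝓞 K) ∣ (u : 𝓞 K) - (n : 𝓞 K) → ∃ v : (𝓞 K)ˣ, u = v ^ p) →
    ∀ {a b c : ℤ}, a ^ p + b ^ p = c ^ p → IsCoprime a b → c ≠ 0 → (p : ℤ) ∣ c → False

/-- If `a ^ p + b ^ p = c ^ p` with `a`, `b` coprime then `a`, `c` are coprime. -/
theorem isCoprime_left_of_eq {p : ℕ} (hp : 0 < p) {a b c : ℤ} (h : a ^ p + b ^ p = c ^ p)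
    (hab : IsCoprime a b) : IsCoprime a c := by
  have h1 : IsCoprime a (b ^ p) := hab.pow_right
  have h2 : IsCoprime a (b ^ p + a * a ^ (p - 1)) := h1.add_mul_left_right _
  have h3 : b ^ p + a * a ^ (p - 1) = c ^ p := by
    rw [← h, ← pow_succ', Nat.sub_add_cancel hp, add_comm]
  rw [h3] at h2
  exact (IsCoprime.pow_right_iff hp).mp h2

/-- If `a ^ p + b ^ p = c ^ p` with `a`, `b` coprime then `b`, `c` are coprime. -/
theorem isCoprime_right_of_eq {p : ℕ} (hp : 0 < p) {a b c : ℤ} (h : a ^ p + b ^ p = c ^ p)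
    (hab : IsCoprime a b) : IsCoprime b c :=
  isCoprime_left_of_eq hp (by rw [add_comm]; exact h) hab.symm

/-- Fermat's Last Theorem for an odd prime exponent `p`, in coprime integer form, from Case I,
Kummer's lemma and the Case II descent. -/
theorem flt_of_ingredients {p : ℕ} (hp : p.Prime) (hp2 : p ≠ 2)
    (K : Type) [Field K] [NumberField K]
    (caseI : ∀ {a b c : ℤ}, a ^ p + b ^ p = c ^ p → IsCoprime a b → (p : ℤ) ∣ a * b * c)
    (kummer : ∀ (u : (𝓞 K)ˣ) (n : ℤ), (p : 𝓞 K) ∣ (u : 𝓞 K) - (n : 𝓞 K) →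
      ∃ v : (𝓞 K)ˣ, u = v ^ p)
    (caseII : CaseIIStatement p K)
    {a b c : ℤ} (ha : a ≠ 0) (hb : b ≠ 0) (hc : c ≠ 0)
    (h : a ^ p + b ^ p = c ^ p) (hab : IsCoprime a b) : False := by
  have hodd : Odd p := hp.odd_of_ne_two hp2
  have hpp : Prime (p : ℤ) := Nat.prime_iff_prime_int.mp hp
  have hdvd := caseI h hab
  rcases hpp.dvd_or_dvd hdvd with hd | hd
  · rcases hpp.dvd_or_dvd hd with hd | hd
    · -- `p ∣ a`: use `b ^ p + (-c) ^ p = (-a) ^ p`
      have h' : b ^ p + (-c) ^ p = (-a) ^ p := by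
        rw [hodd.neg_pow, hodd.neg_pow, ← h]; ring
      exact caseII kummer h' (isCoprime_right_of_eq hp.pos h hab).neg_right
        (neg_ne_zero.mpr ha) ((dvd_neg).mpr hd)
    · -- `p ∣ b`: use `a ^ p + (-c) ^ p = (-b) ^ p`
      have h' : a ^ p + (-c) ^ p = (-b) ^ p := by
        rw [hodd.neg_pow, hodd.neg_pow, ← h]; ring
      exact caseII kummer h' (isCoprime_left_of_eq hp.pos h hab).neg_right
        (neg_ne_zero.mpr hb) ((dvd_neg).mpr hd)
  · exact caseII kummer h hab hc hd

end Fermat.Agent.S11
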