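import Mathlib

/-!
# Case II of Fermat's Last Theorem for a regular prime, in the PID situation

Generic in the odd prime `p`: if `𝓞 K` (`K = ℚ(ζ_p)`) is a PID and Kummer's lemma holds
(units congruent to a rational integer mod `p` are `p`-th powers), then
`a ^ p + b ^ p = c ^ p` with `a`, `b` coprime and `p ∣ c`, `c ≠ 0` is impossible.

The descent is first done in an abstract domain `R` with a primitive `p`-th root of unity
(section `Abstract`), then instantiated to `𝓞 K`.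
-/

set_option autoImplicit false

open Finset

namespace Fermat.Agent.S11

namespace CaseII

section Abstract

variable {R : Type*} [CommRing R] [IsDomain R]

/-- `x ^ p + y ^ p = ∏_{i < p} (x + ζ ^ i * y)` for `p` odd. -/
lemma prod_range_add_pow_mul {p : ℕ} {ζ : R} (hζ : IsPrimitiveRoot ζ p) (hodd : Odd p) (x y : R) :
    ∏ i ∈ range p, (x + ζ ^ i * y) = x ^ p + y ^ p := by
  classical
  have hpos : 0 < p := hodd.pos
  rw [hζ.pow_add_pow_eq_prod_add_mul x y hodd]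
  have himg : Polynomial.nthRootsFinset p (1 : R) = (range p).image (fun i => ζ ^ i) := by
    symm
    apply Finset.eq_of_subset_of_card_le
    · intro a ha
      obtain ⟨i, -, rfl⟩ := Finset.mem_image.mp ha
      rw [Polynomial.mem_nthRootsFinset hpos]
      rw [← pow_mul, mul_comm, pow_mul, hζ.pow_eq_one, one_pow]
    · rw [hζ.card_nthRootsFinset, Finset.card_image_of_injOn, Finset.card_range]
      intro i hi j hj hij
      exact hζ.pow_inj (Finset.mem_range.mp hi) (Finset.mem_range.mp hj) hij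
  rw [himg, Finset.prod_image]
  intro i hi j hj hij
  exact hζ.pow_inj (Finset.mem_range.mp hi) (Finset.mem_range.mp hj) hij

/-- The generalized Fermat equation used for the descent:
`x ^ p + y ^ p = ε * (λ ^ m * z) ^ p` with `x`, `y` coprime, `ε` a unit and `λ ∤ z`,
where `λ = ζ - 1`. -/
def Sol (p : ℕ) (ζ : R) (m : ℕ) : Prop :=
  ∃ (x y z : R) (ε : Rˣ), IsCoprime x y ∧ ¬ (ζ - 1) ∣ z ∧
    x ^ p + y ^ p = ε * ((ζ - 1) ^ m * z) ^ p

variable {p : ℕ} {ζ : R}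

/-- If `λ ∣ x + y` and `λ ∤ y`, then `λ ^ 2 ∣ x + ζ ^ i * y` for some `i`. -/
lemma exists_sq_dvd (hp : p.Prime) (hζ : IsPrimitiveRoot ζ p)
    (hint : ∀ x : R, ∃ n : ℤ, (ζ - 1) ∣ x - (n : R))
    {x y : R} (hy : ¬ (ζ - 1) ∣ y) (hxy : (ζ - 1) ∣ x + y) :
    ∃ i : ℕ, (ζ - 1) ^ 2 ∣ x + ζ ^ i * y := by
  have : Fact p.Prime := Fact.mk hp
  have hlamp : (ζ - 1) ∣ (p : R) := hζ.sub_one_dvd_natCast hp.one_lt
  obtain ⟨c, hc⟩ := hxy
  obtain ⟨nc, hnc⟩ := hint c
  obtain ⟨ny, hny⟩ := hint y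
  have hpny : ¬ (p : ℤ) ∣ ny := by
    rintro ⟨k, hk⟩
    apply hy
    have : y = (y - (ny : R)) + (p : R) * (k : R) := by rw [hk]; push_cast; ring
    rw [this]
    exact dvd_add hny (Dvd.dvd.mul_right hlamp _)
  have hny0 : (ny : ZMod p) ≠ 0 := by
    rwa [Ne, ZMod.intCast_zmod_eq_zero_iff_dvd]
  let i : ℕ := (-(nc : ZMod p) / (ny : ZMod p)).val
  have hi : (p : ℤ) ∣ nc + (i : ℤ) * ny := by
    rw [← ZMod.intCast_zmod_eq_zero_iff_dvd]
    push_cast
    rw [ZMod.natCast_val, ZMod.cast_id', id]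
    field_simp
    ring
  refine ⟨i, ?_⟩
  have hg : (ζ - 1) ∣ (∑ j ∈ range i, ζ ^ j) - (i : R) := by
    have : (∑ j ∈ range i, ζ ^ j) - (i : R) = ∑ j ∈ range i, (ζ ^ j - 1) := by
      simp [Finset.sum_sub_distrib]
    rw [this]
    exact Finset.dvd_sum (fun j _ => by simpa using sub_dvd_pow_sub_pow ζ 1 j)
  have key : x + ζ ^ i * y = (ζ - 1) * (c + (∑ j ∈ range i, ζ ^ j) * y) := by
    have := mul_geom_sum ζ i
    linear_combination hc - y * this
  rw [key, pow_two]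
  apply mul_dvd_mul_left
  have h1 : (ζ - 1) ∣ ((nc + (i : ℤ) * ny : ℤ) : R) := by
    obtain ⟨k, hk⟩ := hi
    rw [hk]
    push_cast
    exact Dvd.dvd.mul_right hlamp _
  have : c + (∑ j ∈ range i, ζ ^ j) * y
      = (c - (nc : R)) + ((∑ j ∈ range i, ζ ^ j) - (i : R)) * y + (i : R) * (y - (ny : R))
        + ((nc + (i : ℤ) * ny : ℤ) : R) := by
    push_cast; ring
  rw [this]
  exact dvd_add (dvd_add (dvd_add hnc (Dvd.dvd.mul_right hg y)) (Dvd.dvd.mul_left hny _)) h1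


/-- The descent step, for a solution normalised so that `λ ^ 2 ∣ x + y`. -/
theorem descent_aux [IsPrincipalIdealRing R] (hp : p.Prime) (hp2 : p ≠ 2)
    (hζ : IsPrimitiveRoot ζ p) (hlam : Prime (ζ - 1))
    (hassoc : Associated ((ζ - 1) ^ (p - 1)) (p : R))
    (hpow : ∀ x : R, ∃ n : ℤ, (p : R) ∣ x ^ p - (n : R))
    (kummer : ∀ (u : Rˣ) (n : ℤ), (p : R) ∣ (u : R) - (n : R) → ∃ v : Rˣ, u = v ^ p)
    {m : ℕ} (hm : 1 ≤ m) {x y z : R} {ε : Rˣ} (hxy : IsCoprime x y) (hz : ¬ (ζ - 1) ∣ z)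
    (hy : ¬ (ζ - 1) ∣ y)
    (heq : x ^ p + y ^ p = ε * ((ζ - 1) ^ m * z) ^ p) (hsq : (ζ - 1) ^ 2 ∣ x + y) :
    2 ≤ m ∧ Sol p ζ (m - 1) := by
  classical
  have hodd : Odd p := hp.odd_of_ne_two hp2
  have hp3 : 3 ≤ p := by have := hp.two_le; omega
  have hlam0 : ζ - 1 ≠ 0 := hlam.ne_zero
  have hlamp : (ζ - 1) ∣ (p : R) := hζ.sub_one_dvd_natCast hp.one_lt
  obtain ⟨c0, hc0⟩ : ∃ c0, x + y = (ζ - 1) * ((ζ - 1) * c0) := by
    obtain ⟨c, hc⟩ := hsq
    exact ⟨c, by rw [hc]; ring⟩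
  -- the geometric sums and the cofactors `c i = (x + ζ ^ i * y) / λ`
  set g : ℕ → R := fun i => ∑ j ∈ range i, ζ ^ j with hgdef
  have hg : ∀ i, (ζ - 1) * g i = ζ ^ i - 1 := fun i => mul_geom_sum ζ i
  set c : ℕ → R := fun i => (ζ - 1) * c0 + g i * y with hcdef
  have hc : ∀ i, x + ζ ^ i * y = (ζ - 1) * c i := by
    intro i
    simp only [hcdef]
    linear_combination hc0 - y * hg i
  have hgunit : ∀ i, 0 < i → i < p → IsUnit (g i) := fun i hi0 hip =>
    hζ.geom_sum_isUnit hp.two_le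
      (Nat.Coprime.symm ((Nat.Prime.coprime_iff_not_dvd hp).mpr (Nat.not_dvd_of_pos_of_lt hi0 hip)))
  have hcnd : ∀ i, 0 < i → i < p → ¬ (ζ - 1) ∣ c i := by
    intro i hi0 hip hdiv
    have h1 : (ζ - 1) ∣ g i * y := by
      have h2 := dvd_sub hdiv (dvd_mul_right (ζ - 1) c0)
      simpa [hcdef] using h2
    rcases hlam.dvd_or_dvd h1 with h | h
    · exact hlam.not_isUnit (isUnit_of_dvd_unit h (hgunit i hi0 hip))
    · exact hy h
  have hc0dvd : (ζ - 1) ∣ c 0 := by simp [hcdef, hgdef]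
  -- the product of the cofactors
  have hprod : ∏ i ∈ range p, c i = ε * ((ζ - 1) ^ (m - 1) * z) ^ p := by
    have h1 : ∏ i ∈ range p, ((ζ - 1) * c i) = x ^ p + y ^ p := by
      rw [← prod_range_add_pow_mul hζ hodd x y]
      exact Finset.prod_congr rfl (fun i _ => (hc i).symm)
    rw [Finset.prod_mul_distrib, Finset.prod_const, Finset.card_range, heq] at h1
    have h2 : (ζ - 1) ^ p * ∏ i ∈ range p, c i
        = (ζ - 1) ^ p * (ε * ((ζ - 1) ^ (m - 1) * z) ^ p) := by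
      rw [h1]
      obtain ⟨k, rfl⟩ : ∃ k, m = k + 1 := ⟨m - 1, by omega⟩
      simp only [Nat.add_sub_cancel]
      generalize ζ - 1 = lam
      ring
    exact mul_left_cancel₀ (pow_ne_zero p hlam0) h2
  have hm2 : 2 ≤ m := by
    by_contra hlt
    have hm1 : m = 1 := by omega
    subst hm1
    have h1 : (ζ - 1) ∣ ∏ i ∈ range p, c i :=
      dvd_trans hc0dvd (Finset.dvd_prod_of_mem c (Finset.mem_range.mpr hp.pos))
    rw [hprod] at h1
    simp only [Nat.sub_self, pow_zero, one_mul] at h1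
    rcases hlam.dvd_or_dvd h1 with h | h
    · exact hlam.not_isUnit (isUnit_of_dvd_unit h ε.isUnit)
    · exact hz (hlam.dvd_of_dvd_pow h)
  refine ⟨hm2, ?_⟩
  -- pairwise coprimality of the cofactors
  have hcop : ∀ i, i < p → ∀ j, j < p → i ≠ j → IsCoprime (c i) (c j) := by
    intro i hi j hj hij
    have hmem : ∀ k, ζ ^ k ∈ Polynomial.nthRootsFinset p (1 : R) := by
      intro k
      rw [Polynomial.mem_nthRootsFinset hp.pos]
      rw [← pow_mul, mul_comm, pow_mul, hζ.pow_eq_one, one_pow]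
    have hne : ζ ^ i ≠ ζ ^ j := fun h => hij (hζ.pow_inj hi hj h)
    obtain ⟨u, hu⟩ :=
      hζ.nthRootsFinset_pairwise_associated_sub_one_sub_of_prime hp (hmem i) (hmem j) hne
    have e1 : c i - c j = u * y := by
      apply mul_left_cancel₀ hlam0
      have h1 := hc i
      have h2 := hc j
      linear_combination -h1 + h2 - y * hu
    have e2 : ζ ^ j * c i - ζ ^ i * c j = -(u * x) := by
      apply mul_left_cancel₀ hlam0
      have h1 := hc i
      have h2 := hc j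
      linear_combination -ζ ^ j * h1 + ζ ^ i * h2 + x * hu
    obtain ⟨a, b, hab⟩ := hxy
    have huu : (↑u⁻¹ : R) * ↑u = 1 := Units.inv_mul u
    refine ⟨↑u⁻¹ * (b - a * ζ ^ j), ↑u⁻¹ * (a * ζ ^ i - b), ?_⟩
    linear_combination (↑u⁻¹ : R) * b * e1 - (↑u⁻¹ : R) * a * e2 + (a * x + b * y) * huu + hab
  -- each cofactor is a `p`-th power up to a unit
  have hpth : ∀ i, i < p → ∃ d : R, Associated (d ^ p) (c i) := by
    intro i hi
    have h1 : Associated (((ζ - 1) ^ (m - 1) * z) ^ p) (c i * ∏ j ∈ (range p).erase i, c j) := by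
      rw [Finset.mul_prod_erase _ _ (Finset.mem_range.mpr hi), hprod]
      exact (associated_unit_mul_left _ _ ε.isUnit).symm
    refine exists_associated_pow_of_associated_pow_mul (IsCoprime.prod_right fun j hj => ?_) h1
    exact hcop i hi j (Finset.mem_range.mp (Finset.mem_of_mem_erase hj))
      (Finset.ne_of_mem_erase hj).symm
  -- the cofactor `c 0` carries all the powers of `λ`
  have hP : ¬ (ζ - 1) ∣ ∏ j ∈ (range p).erase 0, c j := by
    rw [hlam.dvd_finsetProd_iff]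
    rintro ⟨j, hj, hdiv⟩
    exact hcnd j (Nat.pos_of_ne_zero (Finset.ne_of_mem_erase hj))
      (Finset.mem_range.mp (Finset.mem_of_mem_erase hj)) hdiv
  have hpow_dvd : (ζ - 1) ^ ((m - 1) * p) ∣ c 0 := by
    apply hlam.pow_dvd_of_dvd_mul_right _ hP
    rw [Finset.mul_prod_erase _ _ (Finset.mem_range.mpr hp.pos), hprod]
    exact ⟨ε * z ^ p, by ring⟩
  obtain ⟨c0', hc0'⟩ := hpow_dvd
  have hprod' : c0' * ∏ j ∈ (range p).erase 0, c j = ε * z ^ p := by
    apply mul_left_cancel₀ (pow_ne_zero ((m - 1) * p) hlam0)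
    rw [← mul_assoc, ← hc0', Finset.mul_prod_erase _ _ (Finset.mem_range.mpr hp.pos), hprod]
    ring
  have hcop0 : IsCoprime c0' (∏ j ∈ (range p).erase 0, c j) := by
    have h1 : IsCoprime (c 0) (∏ j ∈ (range p).erase 0, c j) :=
      IsCoprime.prod_right fun j hj =>
        hcop 0 hp.pos j (Finset.mem_range.mp (Finset.mem_of_mem_erase hj))
          (Finset.ne_of_mem_erase hj).symm
    rw [hc0'] at h1
    exact h1.of_mul_left_right
  obtain ⟨d0, hd0⟩ := exists_associated_pow_of_associated_pow_mul hcop0 (k := p) (c := z)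
    (by rw [hprod']; exact (associated_unit_mul_left _ _ ε.isUnit).symm)
  have hd0lam : ¬ (ζ - 1) ∣ d0 := by
    intro h
    have h1 : (ζ - 1) ∣ c0' := dvd_trans (dvd_pow h hp.ne_zero) hd0.dvd
    have h2 : (ζ - 1) ∣ ε * z ^ p := by
      rw [← hprod']
      exact Dvd.dvd.mul_right h1 _
    rcases hlam.dvd_or_dvd h2 with h | h
    · exact hlam.not_isUnit (isUnit_of_dvd_unit h ε.isUnit)
    · exact hz (hlam.dvd_of_dvd_pow h)
  obtain ⟨d1, u1, hd1⟩ := hpth 1 (by omega)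
  obtain ⟨d2, u2, hd2⟩ := hpth (p - 1) (by omega)
  obtain ⟨u0, hu0⟩ := hd0
  -- the three-term relation
  have hrel : c 1 + ζ * c (p - 1) = (1 + ζ) * c 0 := by
    apply mul_left_cancel₀ hlam0
    have h1 := hc 1
    have h2 := hc (p - 1)
    have h0 := hc 0
    have hζp : ζ * ζ ^ (p - 1) = 1 := by
      rw [← pow_succ', Nat.sub_add_cancel hp.pos, hζ.pow_eq_one]
    simp only [pow_one, pow_zero, one_mul] at h1 h0
    linear_combination -h1 - ζ * h2 + (1 + ζ) * h0 + y * hζp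
  have h1ζ : IsUnit (1 + ζ) := by
    have h := hgunit 2 (by norm_num) (by omega)
    simpa [hgdef, Finset.sum_range_succ] using h
  set uζ : Rˣ := (hζ.isUnit hp.ne_zero).unit with huζ
  set u : Rˣ := uζ * u2 * u1⁻¹ with hudef
  set ε' : Rˣ := h1ζ.unit * u0 * u1⁻¹ with hε'def
  have hkey : d1 ^ p + (u : R) * d2 ^ p = (ε' : R) * ((ζ - 1) ^ (m - 1) * d0) ^ p := by
    have h := hrel
    rw [← hd1, ← hd2, hc0', ← hu0] at h
    have hu1 : (u1 : R) * ↑u1⁻¹ = 1 := Units.mul_inv u1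
    simp only [hudef, hε'def, huζ, Units.val_mul, IsUnit.unit_spec]
    linear_combination (↑u1⁻¹ : R) * h - d1 ^ p * hu1
  have hpdvd : (p : R) ∣ d1 ^ p + (u : R) * d2 ^ p := by
    rw [hkey]
    have h1 : (p : R) ∣ (ζ - 1) ^ (p - 1) := hassoc.symm.dvd
    have h2 : (ζ - 1) ^ (p - 1) ∣ ((ζ - 1) ^ (m - 1) * d0) ^ p := by
      rw [mul_pow, ← pow_mul]
      refine Dvd.dvd.mul_right (pow_dvd_pow (ζ - 1) ?_) _
      exact Nat.le_trans (Nat.sub_le p 1) (Nat.le_mul_of_pos_left p (by omega))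
    exact Dvd.dvd.mul_left (dvd_trans h1 h2) _
  obtain ⟨n1, hn1⟩ := hpow d1
  obtain ⟨n2, hn2⟩ := hpow d2
  have hd2lam : ¬ (ζ - 1) ∣ d2 := by
    intro h
    apply hcnd (p - 1) (by omega) (by omega)
    rw [← hd2]
    exact Dvd.dvd.mul_right (dvd_pow h hp.ne_zero) _
  have hn2p : ¬ (p : ℤ) ∣ n2 := by
    rintro ⟨k, hk⟩
    apply hd2lam
    apply hlam.dvd_of_dvd_pow (n := p)
    have h1 : d2 ^ p = (d2 ^ p - (n2 : R)) + (p : R) * (k : R) := by
      rw [hk]; push_cast; ring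
    rw [h1]
    exact dvd_add (dvd_trans hlamp hn2) (Dvd.dvd.mul_right hlamp _)
  have hcopZ : IsCoprime (p : ℤ) n2 :=
    (Nat.prime_iff_prime_int.mp hp).coprime_iff_not_dvd.mpr hn2p
  obtain ⟨t, s, hst⟩ := hcopZ
  have hst' : (t : R) * (p : R) + (s : R) * (n2 : R) = 1 := by
    have := congrArg (Int.cast : ℤ → R) hst
    push_cast at this
    exact this
  have hkum : (p : R) ∣ (u : R) - ((-(s * n1) : ℤ) : R) := by
    have h3 : (p : R) ∣ (n1 : R) + u * n2 := by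
      have h4 : (n1 : R) + u * n2
          = (d1 ^ p + u * d2 ^ p) - (d1 ^ p - (n1 : R)) - u * (d2 ^ p - (n2 : R)) := by ring
      rw [h4]
      exact dvd_sub (dvd_sub hpdvd hn1) (Dvd.dvd.mul_left hn2 _)
    have h5 : (u : R) - ((-(s * n1) : ℤ) : R)
        = (s : R) * ((n1 : R) + u * n2) + (p : R) * ((t : R) * u) := by
      push_cast
      linear_combination (-(u : R)) * hst'
    rw [h5]
    exact dvd_add (Dvd.dvd.mul_left h3 _) (dvd_mul_right _ _)
  obtain ⟨v, hv⟩ := kummer u _ hkum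
  refine ⟨d1, v * d2, d0, ε', ?_, hd0lam, ?_⟩
  · have h := hcop 1 (by omega) (p - 1) (by omega) (by omega)
    rw [← hd1, ← hd2] at h
    have h' : IsCoprime (d1 ^ p) (d2 ^ p) := h.of_mul_left_left.of_mul_right_left
    exact (isCoprime_mul_unit_left_right v.isUnit _ _).mpr
      ((IsCoprime.pow_iff hp.pos hp.pos).mp h')
  · rw [mul_pow, ← Units.val_pow_eq_pow_val, ← hv]
    exact hkey


/-- The descent step: a solution with `λ`-exponent `m ≥ 1` has `m ≥ 2` and yields a solution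
with exponent `m - 1`. -/
theorem descent [IsPrincipalIdealRing R] (hp : p.Prime) (hp2 : p ≠ 2)
    (hζ : IsPrimitiveRoot ζ p) (hlam : Prime (ζ - 1))
    (hassoc : Associated ((ζ - 1) ^ (p - 1)) (p : R))
    (hint : ∀ x : R, ∃ n : ℤ, (ζ - 1) ∣ x - (n : R))
    (hpow : ∀ x : R, ∃ n : ℤ, (p : R) ∣ x ^ p - (n : R))
    (kummer : ∀ (u : Rˣ) (n : ℤ), (p : R) ∣ (u : R) - (n : R) → ∃ v : Rˣ, u = v ^ p)
    {m : ℕ} (hm : 1 ≤ m) (hS : Sol p ζ m) : 2 ≤ m ∧ Sol p ζ (m - 1) := by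
  classical
  obtain ⟨x, y, z, ε, hxy, hz, heq⟩ := hS
  have hodd : Odd p := hp.odd_of_ne_two hp2
  -- `λ` divides the right hand side
  have hrhs : (ζ - 1) ∣ (ε : R) * ((ζ - 1) ^ m * z) ^ p :=
    Dvd.dvd.mul_left (dvd_pow (Dvd.dvd.mul_right (dvd_pow_self _ (by omega)) _) hp.ne_zero) _
  -- `λ ∤ y`
  have hy : ¬ (ζ - 1) ∣ y := by
    intro hy
    have h1 : (ζ - 1) ∣ x ^ p := by
      have h2 : x ^ p = ε * ((ζ - 1) ^ m * z) ^ p - y ^ p := by rw [← heq]; ring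
      rw [h2]
      exact dvd_sub hrhs (dvd_pow hy hp.ne_zero)
    exact hlam.not_isUnit (hxy.isUnit_of_dvd' (hlam.dvd_of_dvd_pow h1) hy)
  -- `λ ∣ x + y`
  have hxy1 : (ζ - 1) ∣ x + y := by
    rw [← heq, ← prod_range_add_pow_mul hζ hodd x y, hlam.dvd_finsetProd_iff] at hrhs
    obtain ⟨i, -, hi⟩ := hrhs
    have h1 : x + y = (x + ζ ^ i * y) - (ζ ^ i - 1) * y := by ring
    rw [h1]
    refine dvd_sub hi (Dvd.dvd.mul_right ?_ _)
    simpa using sub_dvd_pow_sub_pow ζ 1 i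
  obtain ⟨i, hi⟩ := exists_sq_dvd hp hζ hint hy hxy1
  have hζi : IsUnit (ζ ^ i) := (hζ.isUnit hp.ne_zero).pow i
  have hyi : (ζ ^ i * y) ^ p = y ^ p := by
    rw [mul_pow, ← pow_mul, mul_comm i p, pow_mul, hζ.pow_eq_one, one_pow, one_mul]
  refine descent_aux hp hp2 hζ hlam hassoc hpow kummer hm
    ((isCoprime_mul_unit_left_right hζi x y).mpr hxy) hz ?_ (by rw [hyi]; exact heq) hi
  intro h
  exact hy ((hζi.dvd_mul_left).mp h)

/-- There is no solution of the generalized equation with `m ≥ 1`. -/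
theorem not_sol [IsPrincipalIdealRing R] (hp : p.Prime) (hp2 : p ≠ 2)
    (hζ : IsPrimitiveRoot ζ p) (hlam : Prime (ζ - 1))
    (hassoc : Associated ((ζ - 1) ^ (p - 1)) (p : R))
    (hint : ∀ x : R, ∃ n : ℤ, (ζ - 1) ∣ x - (n : R))
    (hpow : ∀ x : R, ∃ n : ℤ, (p : R) ∣ x ^ p - (n : R))
    (kummer : ∀ (u : Rˣ) (n : ℤ), (p : R) ∣ (u : R) - (n : R) → ∃ v : Rˣ, u = v ^ p) :
    ∀ m : ℕ, 1 ≤ m → ¬ Sol p ζ m := by
  intro m
  induction m with
  | zero => intro h; omega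
  | succ k ih =>
    intro _ hS
    obtain ⟨h2, hS'⟩ := descent hp hp2 hζ hlam hassoc hint hpow kummer (by omega) hS
    exact ih (by omega) (by simpa using hS')

/-- Case II in the abstract setting. -/
theorem caseII_abstract [IsPrincipalIdealRing R] (hp : p.Prime) (hp2 : p ≠ 2)
    (hζ : IsPrimitiveRoot ζ p) (hlam : Prime (ζ - 1))
    (hassoc : Associated ((ζ - 1) ^ (p - 1)) (p : R))
    (hint : ∀ x : R, ∃ n : ℤ, (ζ - 1) ∣ x - (n : R))
    (hpow : ∀ x : R, ∃ n : ℤ, (p : R) ∣ x ^ p - (n : R))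
    (hdvd : ∀ n : ℤ, (ζ - 1) ∣ (n : R) → (p : ℤ) ∣ n)
    (kummer : ∀ (u : Rˣ) (n : ℤ), (p : R) ∣ (u : R) - (n : R) → ∃ v : Rˣ, u = v ^ p)
    {a b c : ℤ} (h : a ^ p + b ^ p = c ^ p) (hab : IsCoprime a b) (hc : c ≠ 0)
    (hpc : (p : ℤ) ∣ c) : False := by
  have hfin : FiniteMultiplicity (p : ℤ) c := by
    rw [Int.finiteMultiplicity_iff]
    refine ⟨?_, hc⟩
    simpa using hp.ne_one
  obtain ⟨c0, hc0, hpc0⟩ := hfin.exists_eq_pow_mul_and_not_dvd
  set k := multiplicity (p : ℤ) c with hk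
  have hk1 : 1 ≤ k := by
    by_contra hlt
    have hk0 : k = 0 := by omega
    rw [hk0, pow_zero, one_mul] at hc0
    exact hpc0 (hc0 ▸ hpc)
  obtain ⟨η, hη⟩ := hassoc
  refine not_sol hp hp2 hζ hlam ⟨η, hη⟩ hint hpow kummer ((p - 1) * k) ?_
    ⟨(a : R), (b : R), (c0 : R), (η ^ k) ^ p, hab.intCast, fun hdiv => hpc0 (hdvd c0 hdiv), ?_⟩
  · have := hp.two_le
    exact Nat.mul_pos (by omega) hk1
  · have h1 : ((a : R)) ^ p + (b : R) ^ p = (c : R) ^ p := by exact_mod_cast congrArg (Int.cast : ℤ → R) h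
    rw [h1, hc0]
    push_cast
    rw [← hη]
    generalize ζ - 1 = lam
    ring

end Abstract

section NumberField

open NumberField Polynomial

lemma aeval_one_int (f : ℤ[X]) (S : Type*) [CommRing S] :
    aeval (1 : S) f = ((f.eval 1 : ℤ) : S) := by
  rw [Polynomial.aeval_def, Polynomial.eval₂_eq_eval_map]
  simp

/-- `f ^ p ≡ f(X ^ p)` modulo `p` for integer polynomials. -/
lemma exists_pow_eq_expand_add {p : ℕ} [Fact p.Prime] (f : ℤ[X]) :
    ∃ g : ℤ[X], f ^ p = expand ℤ p f + C (p : ℤ) * g := by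
  have h : C (p : ℤ) ∣ f ^ p - expand ℤ p f := by
    rw [Polynomial.C_dvd_iff_dvd_coeff]
    intro i
    rw [← ZMod.intCast_zmod_eq_zero_iff_dvd]
    have h1 : Polynomial.map (Int.castRingHom (ZMod p)) (f ^ p - expand ℤ p f) = 0 := by
      rw [Polynomial.map_sub, Polynomial.map_pow, Polynomial.map_expand, ZMod.expand_card, sub_self]
    have h2 : (Polynomial.map (Int.castRingHom (ZMod p)) (f ^ p - expand ℤ p f)).coeff i = 0 := by
      rw [h1]; simp
    rwa [Polynomial.coeff_map, eq_intCast] at h2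
  obtain ⟨g, hg⟩ := h
  exact ⟨g, by rw [← hg]; ring⟩

variable {p : ℕ} [hpF : Fact p.Prime] {K : Type*} [Field K] [NumberField K]
  [IsCyclotomicExtension {p} ℚ K] {ζ : K} (hζ : IsPrimitiveRoot ζ p)

include hζ in
/-- Every element of `𝓞 K` is congruent to a rational integer modulo `ζ - 1`. -/
lemma exists_int_sub_dvd (x : 𝓞 K) : ∃ n : ℤ, (hζ.toInteger - 1) ∣ x - (n : 𝓞 K) := by
  obtain ⟨f, hf⟩ := hζ.integralPowerBasis.exists_eq_aeval' x
  rw [hζ.integralPowerBasis_gen] at hf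
  refine ⟨f.eval 1, ?_⟩
  have h := Polynomial.sub_dvd_eval_sub hζ.toInteger 1 (f.map (algebraMap ℤ (𝓞 K)))
  rw [← Polynomial.eval₂_eq_eval_map, ← Polynomial.eval₂_eq_eval_map, ← Polynomial.aeval_def,
    ← Polynomial.aeval_def, aeval_one_int, ← hf] at h
  exact h

include hζ in
/-- Every `p`-th power in `𝓞 K` is congruent to a rational integer modulo `p`. -/
lemma exists_int_pow_sub_dvd (x : 𝓞 K) : ∃ n : ℤ, (p : 𝓞 K) ∣ x ^ p - (n : 𝓞 K) := by
  obtain ⟨f, hf⟩ := hζ.integralPowerBasis.exists_eq_aeval' x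
  rw [hζ.integralPowerBasis_gen] at hf
  obtain ⟨g, hg⟩ := exists_pow_eq_expand_add (p := p) f
  refine ⟨f.eval 1, aeval hζ.toInteger g, ?_⟩
  have h1 := congrArg (aeval hζ.toInteger) hg
  rw [map_pow, map_add, map_mul, Polynomial.expand_aeval, hζ.toInteger_isPrimitiveRoot.pow_eq_one,
    aeval_one_int, ← hf, Polynomial.aeval_C] at h1
  rw [h1]
  simp

include hζ in
/-- A rational integer divisible by `ζ - 1` is divisible by `p`. -/
lemma int_dvd_of_dvd (hp2 : p ≠ 2) (n : ℤ) (h : (hζ.toInteger - 1) ∣ (n : 𝓞 K)) :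
    (p : ℤ) ∣ n := by
  rwa [← Ideal.norm_dvd_iff (hζ.prime_norm_toInteger_sub_one_of_prime_ne_two' hp2),
    hζ.norm_toInteger_sub_one_of_prime_ne_two' hp2] at h

end NumberField

end CaseII

open NumberField in
/-- **Case II of Fermat's Last Theorem** for an odd prime `p` such that `𝓞 ℚ(ζ_p)` is a PID
and Kummer's lemma holds: `a ^ p + b ^ p = c ^ p` with `a`, `b` coprime, `c ≠ 0` and `p ∣ c`
is impossible. -/
theorem caseII {p : ℕ} [Fact p.Prime] (hp5 : 5 ≤ p) (K : Type) [Field K] [NumberField K]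
    [IsCyclotomicExtension {p} ℚ K] [IsPrincipalIdealRing (𝓞 K)]
    (kummer : ∀ (u : (𝓞 K)ˣ) (n : ℤ), (p : 𝓞 K) ∣ (u : 𝓞 K) - (n : 𝓞 K) → ∃ v : (𝓞 K)ˣ, u = v ^ p)
    {a b c : ℤ} (h : a ^ p + b ^ p = c ^ p) (hab : IsCoprime a b) (hc : c ≠ 0)
    (hpc : (p : ℤ) ∣ c) : False := by
  have hp : p.Prime := Fact.out
  have hp2 : p ≠ 2 := by omega
  have hζ := IsCyclotomicExtension.zeta_spec p ℚ K
  exact CaseII.caseII_abstract hp hp2 hζ.toInteger_isPrimitiveRoot hζ.zeta_sub_one_prime'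
    (IsCyclotomicExtension.Rat.associated_zeta_sub_one_pow_prime p hζ)
    (CaseII.exists_int_sub_dvd hζ) (CaseII.exists_int_pow_sub_dvd hζ)
    (CaseII.int_dvd_of_dvd hζ hp2) kummer h hab hc hpc

end Fermat.Agent.S11
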