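import Mathlib

/-!
# Kummer's lemma from a "logarithmic derivative" certificate

`kummer_of_dlog`: let `K` be the `p`-th cyclotomic field (`p` an odd prime) and
`L : (𝓞 K)ˣ →* Multiplicative V` a homomorphism to an `𝔽_p`-vector space which kills
every unit congruent to a rational integer modulo `p`.  If `L ζ` together with the
`L (g i)` for a family `g` of at least `rank K` units are linearly independent, then every unit
congruent to a rational integer modulo `p` is a `p`-th power.

The proof only uses Dirichlet's unit theorem (the rank of the unit group) and the description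
of the roots of unity of `K`; no class field theory.
-/

set_option autoImplicit false

open NumberField Module

namespace Fermat.Agent.S11

section abstract

variable {p : ℕ} [hp : Fact p.Prime] (K : Type) [Field K] [NumberField K]
  [IsCyclotomicExtension {p} ℚ K]

include hp in
/-- The unit rank of the `p`-th cyclotomic field. -/
theorem rank_eq (hp2 : p ≠ 2) : NumberField.Units.rank K = (p - 3) / 2 := by
  have hp3 : 2 < p := lt_of_le_of_ne hp.out.two_le (Ne.symm hp2)
  have : NeZero p := ⟨hp.out.ne_zero⟩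
  dsimp only [NumberField.Units.rank]
  rw [InfinitePlace.card_eq_nrRealPlaces_add_nrComplexPlaces,
    IsCyclotomicExtension.Rat.nrRealPlaces_eq_zero (n := p) K hp3, zero_add,
    IsCyclotomicExtension.Rat.nrComplexPlaces_eq_totient_div_two (n := p),
    Nat.totient_prime hp.out]
  omega

set_option maxSynthPendingDepth 3 in
/-- A nontrivial, *primitive* integer relation among more than `rank K` units modulo torsion. -/
theorem exists_primitive_relation {ι : Type} [Fintype ι]
    (hι : NumberField.Units.rank K < Fintype.card ι) (f : ι → (𝓞 K)ˣ) :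
    ∃ c : ι → ℤ, (∏ i, f i ^ c i) ∈ NumberField.Units.torsion K ∧
      ∀ q : ℕ, q.Prime → ∃ i, ¬ (q : ℤ) ∣ c i := by
  classical
  let b : ι → Additive ((𝓞 K)ˣ ⧸ NumberField.Units.torsion K) :=
    fun i => Additive.ofMul (QuotientGroup.mk (f i))
  have hnot : ¬ LinearIndependent ℤ b := by
    intro hli
    have := hli.fintype_card_le_finrank
    rw [NumberField.Units.finrank_modTorsion] at this
    omega
  obtain ⟨c, hc, i₀, hi₀⟩ := Fintype.not_linearIndependent_iff.mp hnot
  obtain ⟨c', hc', hgcd⟩ := Finset.extract_gcd c (s := Finset.univ) ⟨i₀, Finset.mem_univ _⟩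
  have hd : (Finset.univ.gcd c) ≠ 0 := by
    intro h0
    rw [Finset.gcd_eq_zero_iff] at h0
    exact hi₀ (h0 i₀ (Finset.mem_univ _))
  refine ⟨c', ?_, ?_⟩
  · have h1 : (Finset.univ.gcd c) • ∑ i, c' i • b i = 0 := by
      rw [Finset.smul_sum, ← hc]
      refine Finset.sum_congr rfl fun i _ => ?_
      rw [smul_smul, ← hc' i (Finset.mem_univ _)]
    have h2 : ∑ i, c' i • b i = 0 := (smul_eq_zero.mp h1).resolve_left hd
    have h3 : (∑ i, c' i • b i) =
        Additive.ofMul (QuotientGroup.mk (s := NumberField.Units.torsion K) (∏ i, f i ^ c' i)) := by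
      simp only [b, QuotientGroup.mk_prod, ofMul_prod, QuotientGroup.mk_zpow, ofMul_zpow]
    rw [h3] at h2
    exact (QuotientGroup.eq_one_iff _).mp (Additive.ofMul.injective h2)
  · intro q hq
    by_contra hall
    simp only [not_exists, not_not] at hall
    have : (q : ℤ) ∣ Finset.univ.gcd c' := Finset.dvd_gcd fun i _ => hall i
    rw [hgcd] at this
    exact hq.one_lt.ne' (by exact_mod_cast Int.eq_one_of_dvd_one (by positivity) this)

include hp in
/-- **Kummer's lemma from a dlog certificate.** -/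
theorem kummer_of_dlog (hp2 : p ≠ 2)
    {V : Type} [AddCommGroup V] [Module (ZMod p) V]
    (L : (𝓞 K)ˣ →* Multiplicative V)
    (hcong : ∀ (u : (𝓞 K)ˣ) (n : ℤ), (p : 𝓞 K) ∣ (u : 𝓞 K) - (n : 𝓞 K) → L u = 1)
    (ζ : (𝓞 K)ˣ) (hζ : IsPrimitiveRoot ζ p)
    {ι : Type} [Fintype ι] (hι : NumberField.Units.rank K ≤ Fintype.card ι)
    (g : ι → (𝓞 K)ˣ)
    (hind : LinearIndependent (ZMod p)
      (fun i : Option ι => Multiplicative.toAdd (L (i.elim ζ g)))) :
    ∀ (u : (𝓞 K)ˣ) (n : ℤ), (p : 𝓞 K) ∣ (u : 𝓞 K) - (n : 𝓞 K) → ∃ v : (𝓞 K)ˣ, u = v ^ p := by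
  classical
  intro u n hun
  have hpodd : Odd p := hp.out.odd_of_ne_two hp2
  have : NeZero p := ⟨hp.out.ne_zero⟩
  -- the additive version of `L`
  set ℓ : (𝓞 K)ˣ → V := fun x => Multiplicative.toAdd (L x) with hℓ
  have ℓ_mul : ∀ x y, ℓ (x * y) = ℓ x + ℓ y := fun x y => by simp [hℓ]
  have ℓ_zpow : ∀ (x : (𝓞 K)ˣ) (m : ℤ), ℓ (x ^ m) = m • ℓ x := fun x m => by simp [hℓ]
  have ℓ_pow : ∀ (x : (𝓞 K)ˣ) (m : ℕ), ℓ (x ^ m) = m • ℓ x := fun x m => by simp [hℓ]
  have ℓ_prod : ∀ (f : ι → (𝓞 K)ˣ), ℓ (∏ i, f i) = ∑ i, ℓ (f i) := fun f => by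
    simp [hℓ, map_prod]
  have ℓu : ℓ u = 0 := by simp [hℓ, hcong u n hun]
  have ℓneg : ℓ (-1) = 0 := by
    have : L (-1) = 1 := hcong (-1) (-1) (by simp)
    simp [hℓ, this]
  -- a primitive relation among `u` and the `g i`
  obtain ⟨c, hc, hprim⟩ := exists_primitive_relation K (ι := Option ι)
    (by rw [Fintype.card_option]; omega) (fun i => i.elim u g)
  rw [Fintype.prod_option] at hc
  simp only [Option.elim] at hc
  set w : (𝓞 K)ˣ := u ^ c none * ∏ i, g i ^ c (some i) with hw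
  -- `w` is a root of unity, hence `± ζ ^ k`
  have hζK : IsPrimitiveRoot (((ζ : (𝓞 K)ˣ) : 𝓞 K) : K) p :=
    (IsPrimitiveRoot.coe_units_iff.mpr hζ).map_of_injective
      (FaithfulSMul.algebraMap_injective (𝓞 K) K)
  obtain ⟨N, hNpos, hN⟩ := isOfFinOrder_iff_pow_eq_one.1 ((CommGroup.mem_torsion _).1 hc)
  have hwK : IsOfFinOrder (((w : (𝓞 K)ˣ) : 𝓞 K) : K) := by
    refine isOfFinOrder_iff_pow_eq_one.2 ⟨N, hNpos, ?_⟩
    rw [← map_pow, ← Units.val_pow_eq_pow_val, hN]
    simp
  obtain ⟨k, hkp, hk⟩ := hζK.exists_pow_or_neg_mul_pow_of_isOfFinOrder hpodd hwK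
  have hw' : w = ζ ^ k ∨ w = -ζ ^ k := by
    rcases hk with h | h
    · left; ext; simpa using h
    · right; ext; simpa using h
  have ℓw : ℓ w = k • ℓ ζ := by
    rcases hw' with h | h
    · rw [h, ℓ_pow]
    · rw [h, neg_eq_neg_one_mul, ℓ_mul, ℓneg, zero_add, ℓ_pow]
  have ℓw' : ℓ w = ∑ i, c (some i) • ℓ (g i) := by
    rw [hw, ℓ_mul, ℓ_zpow, ℓu, smul_zero, zero_add, ℓ_prod]
    exact Finset.sum_congr rfl fun i _ => ℓ_zpow _ _
  -- linear independence kills the coefficients
  have key : ∑ i : Option ι,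
      (i.elim (-(k : ZMod p)) (fun i => ((c (some i) : ℤ) : ZMod p))) • ℓ (i.elim ζ g) = 0 := by
    rw [Fintype.sum_option]
    simp only [Option.elim]
    rw [neg_smul, Nat.cast_smul_eq_nsmul, ← ℓw, ℓw', neg_add_eq_zero]
    exact Finset.sum_congr rfl fun i _ => (Int.cast_smul_eq_zsmul (ZMod p) _ _).symm
  have hzero := Fintype.linearIndependent_iff.mp hind _ key
  have hk0 : k = 0 := by
    have h := hzero none
    simp only [Option.elim, neg_eq_zero] at h
    exact Nat.eq_zero_of_dvd_of_lt ((ZMod.natCast_eq_zero_iff k p).1 h) hkp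
  have hci : ∀ i, (p : ℤ) ∣ c (some i) := fun i => by
    have h := hzero (some i)
    simp only [Option.elim] at h
    exact (ZMod.intCast_zmod_eq_zero_iff_dvd _ p).1 h
  -- hence `p ∤ c none`
  have hm : ¬ (p : ℤ) ∣ c none := by
    obtain ⟨i, hi⟩ := hprim p hp.out
    cases i with
    | none => exact hi
    | some i => exact absurd (hci i) hi
  choose e he using hci
  set y0 : (𝓞 K)ˣ := ∏ i, g i ^ e i with hy0
  have hprod : ∏ i, g i ^ c (some i) = y0 ^ p := by
    rw [hy0, ← Finset.prod_pow]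
    refine Finset.prod_congr rfl fun i _ => ?_
    rw [he i, mul_comm, zpow_mul, zpow_natCast]
  -- `u ^ (c none)` is a `p`-th power
  obtain ⟨y, hy⟩ : ∃ y : (𝓞 K)ˣ, u ^ c none = y ^ p := by
    rw [hk0, pow_zero] at hw'
    have hum : u ^ c none = w * (y0⁻¹) ^ p := by
      rw [hw, hprod, inv_pow, mul_inv_cancel_right]
    rcases hw' with h | h
    · exact ⟨y0⁻¹, by rw [hum, h, one_mul]⟩
    · exact ⟨-y0⁻¹, by rw [hum, h, hpodd.neg_pow, neg_one_mul]⟩
  -- Bezout
  have hcop : IsCoprime (p : ℤ) (c none) :=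
    (Prime.coprime_iff_not_dvd (Nat.prime_iff_prime_int.mp hp.out)).2 hm
  obtain ⟨s, t, hst⟩ := hcop
  refine ⟨u ^ s * y ^ t, ?_⟩
  calc u = u ^ (s * (p : ℤ) + t * c none) := by rw [hst, zpow_one]
    _ = (u ^ s) ^ p * (u ^ c none) ^ t := by
        rw [zpow_add, zpow_mul, zpow_natCast, mul_comm t, zpow_mul]
    _ = (u ^ s * y ^ t) ^ p := by
        rw [hy, mul_pow, ← zpow_natCast (y ^ t), ← zpow_natCast y, ← zpow_mul, ← zpow_mul,
          mul_comm t]

end abstract

end Fermat.Agent.S11
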